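/-
Auto A7: restriction of lattice classes to a smaller level.
-/
import Fermat.Agent.Auto.Galois
import Fermat.Agent.Auto.Free.Ops

set_option autoImplicit false
set_option linter.unusedSectionVars false
set_option linter.style.haveILetI false

noncomputable section

namespace Fermat.Agent.Auto

open CongruenceSubgroup
open Fermat.Agent.GalRep (IMat GoodPrime heckeRep)
open Fermat.Agent.GalRep.Level (IsDiamond heckeRepG galG galG_restrict)
open Fermat.Agent.DS (IsReps exists_twist parMap eleven_mul diaMat diaMat_mem)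
open Fermat.Agent.Galois (GQ)
open scoped MatrixGroups

variable {M M' : ℕ} [NeZero M] [NeZero M'] {Δ Δ' : Type} [CommGroup Δ] [CommGroup Δ']
  {c : (ZMod M)ˣ →* Δ} {c' : (ZMod M')ˣ →* Δ'} {O : Type} [CommRing O]

section

variable (hle : grp M' c' ≤ grp M c)

/-- Restriction to a smaller level. -/
def latRes : Lat M c O →ₗ[O] Lat M' c' O where
  toFun v := ⟨(v : Additive (grp M c) →+ O).comp (Subgroup.inclusion hle).toAdditive,
    fun γ hγ => v.2 (Subgroup.inclusion hle γ) hγ⟩
  map_add' _ _ := rfl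
  map_smul' _ _ := rfl

theorem latRes_apply (v : Lat M c O) (γ : grp M' c') :
    ((latRes hle v : Lat M' c' O) : Additive (grp M' c') →+ O) (Additive.ofMul γ) =
      (v : Additive (grp M c) →+ O) (Additive.ofMul (Subgroup.inclusion hle γ)) := rfl

theorem latRes_injective [IsDomain O] [CharZero O] :
    Function.Injective (latRes (O := O) hle) := by
  refine (injective_iff_map_eq_zero _).mpr fun v hv => lat_ext_apply fun γ => ?_
  obtain ⟨n, hn0, -, hn⟩ := Subgroup.exists_pow_mem_of_index_ne_zero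
    (finiteIndex_grp (M := M') (c := c')).index_ne_zero (γ : SL(2, ℤ))
  have h1 := congrArg (fun w : Lat M' c' O =>
    (w : Additive (grp M' c') →+ O) (Additive.ofMul ⟨_, hn⟩)) hv
  simp only [latRes_apply] at h1
  rw [show Subgroup.inclusion hle ⟨_, hn⟩ = γ ^ n from Subtype.ext rfl, ofMul_pow, map_nsmul] at h1
  exact (smul_eq_zero.mp h1).resolve_left hn0.ne'

/-- Restriction commutes with `T_ℓ` for `ℓ` prime to both levels. -/
theorem latRes_latT (hd : M ∣ M') (l : Nat.Primes) (hl : ¬ (l : ℕ) ∣ M) (hl' : ¬ (l : ℕ) ∣ M')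
    (v : Lat M c O) :
    latRes hle (latT M c O ⟨l, hl⟩ v) = latT M' c' O ⟨l, hl'⟩ (latRes hle v) := by
  classical
  obtain ⟨π, u, -, hu0, hu11, hu⟩ := exists_twist l.2 hl (gpDia (M := M) ⟨l, hl⟩)
  obtain ⟨π', u', -, hu0', hu11', hu'⟩ := exists_twist l.2 hl' (gpDia (M := M') ⟨l, hl'⟩)
  refine lat_ext_apply fun γ => ?_
  show (isReps_grp l.2 hl (gpDia (M := M) ⟨l, hl⟩)).transfer v.1
      (.ofMul (Subgroup.inclusion hle γ)) =
    (isReps_grp l.2 hl' (gpDia (M := M') ⟨l, hl'⟩)).transfer (latRes hle v).1 (.ofMul γ)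
  rw [IsReps.transfer_apply, IsReps.transfer_apply]
  set h := isReps_grp (c := c) l.2 hl (gpDia (M := M) ⟨l, hl⟩)
  set h' := isReps_grp (c := c') l.2 hl' (gpDia (M := M') ⟨l, hl'⟩)
  set γ₀ := Subgroup.inclusion hle γ
  set e : Option (Fin (l : ℕ)) ≃ Option (Fin (l : ℕ)) := π'.optionCongr.trans π.optionCongr.symm
  have hred : ∀ x : ℤ, ZMod.castHom hd (ZMod M) ((x : ZMod M')) = (x : ZMod M) := fun x =>
    map_intCast _ x
  have hw : ∀ i, u' i * (u (e i))⁻¹ ∈ grp M c := fun i => by
    have hu0M : u' i ∈ Gamma0 M := by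
      rw [Gamma0_mem, ← hred, Gamma0_mem.mp (hu0' i), map_zero]
    refine mem_grp_of_eleven (mul_mem hu0M (inv_mem (hu0 _))) (one_mem _) ?_
    have h1 := congrArg (ZMod.castHom hd (ZMod M)) (hu11' i)
    rw [map_mul, hred, hred, map_natCast] at h1
    have h2 := hu11 (e i)
    rw [show π.optionCongr (e i) = π'.optionCongr i from π.optionCongr.apply_symm_apply _] at h2
    have hunit : IsUnit ((heckeRep (l : ℕ) (π'.optionCongr i) 1 1 : ℤ) : ZMod M) :=
      isUnit_of_mul_isUnit_right (x := ((u (e i) 1 1 : ℤ) : ZMod M)) (by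
        rw [h2]; exact (ZMod.unitOfCoprime _ (l.2.coprime_iff_not_dvd.2 hl)).isUnit)
    rw [eleven_mul hu0M, hunit.mul_right_cancel (h1.trans h2.symm), ← eleven_mul (hu0 _),
      mul_inv_cancel]
  set w : Option (Fin (l : ℕ)) → grp M c := fun i => ⟨_, hw i⟩
  have hβ : ∀ i, heckeRepG M' l (diaMat (ZMod.unitOfCoprime _ (l.2.coprime_iff_not_dvd.2 hl'))) i =
      ((w i : SL(2, ℤ)) : IMat) *
        heckeRepG M l (diaMat (ZMod.unitOfCoprime _ (l.2.coprime_iff_not_dvd.2 hl))) (e i) := fun i => by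
    rw [hu (e i), hu' i, show π.optionCongr (e i) = π'.optionCongr i from
      π.optionCongr.apply_symm_apply _, ← mul_assoc, ← Matrix.SpecialLinearGroup.coe_mul,
      inv_mul_cancel_right]
  have hco : ∀ i, h.coef γ₀ (e i) =
      (w i)⁻¹ * Subgroup.inclusion hle (h'.coef γ i) * w (h'.idx γ i) := fun i => by
    refine (h.unique (j := e (h'.idx γ i)) ?_).2
    simp only [Subgroup.coe_mul, Subgroup.coe_inv, Matrix.SpecialLinearGroup.coe_mul,
      Subgroup.coe_inclusion, γ₀, mul_assoc]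
    rw [← hβ (h'.idx γ i), ← h'.spec γ i, hβ i, ← mul_assoc, ← mul_assoc,
      ← Matrix.SpecialLinearGroup.coe_mul, inv_mul_cancel, Matrix.SpecialLinearGroup.coe_one,
      one_mul]
  rw [← Equiv.sum_comp e]
  simp only [hco, ofMul_mul, ofMul_inv, map_add, map_neg, Finset.sum_add_distrib,
    Finset.sum_neg_distrib]
  rw [show ∑ i, (v : Additive (grp M c) →+ O) (.ofMul (w (h'.idx γ i))) =
    ∑ i, (v : Additive (grp M c) →+ O) (.ofMul (w i)) from
      Equiv.sum_comp (h'.perm γ) fun i => (v : Additive (grp M c) →+ O) (.ofMul (w i))]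
  abel

/-- Restriction commutes with the diamonds. -/
theorem latRes_latDia {c₁ : (ZMod M)ˣ →* Δ'} (hle' : grp M c₁ ≤ grp M c) (d : (ZMod M)ˣ)
    (v : Lat M c O) :
    latRes hle' (latDia M c O d v) = latDia M c₁ O d (latRes hle' v) := by
  refine lat_ext_apply fun γ => ?_
  show (isReps_grp_diamond (c := c) (diaMat_mem d)).transfer v.1 (.ofMul (Subgroup.inclusion hle' γ)) =
    (isReps_grp_diamond (c := c₁) (diaMat_mem d)).transfer (latRes hle' v).1 (.ofMul γ)
  rw [IsReps.transfer_apply, IsReps.transfer_apply]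
  refine Finset.sum_congr rfl fun i _ => ?_
  rw [((isReps_grp_diamond (c := c) (diaMat_mem d)).unique (j := ())
    (g := Subgroup.inclusion hle' ((isReps_grp_diamond (c := c₁) (diaMat_mem d)).coef γ i))
    ((isReps_grp_diamond (c := c₁) (diaMat_mem d)).spec γ i)).2]
  rfl

end

/-- Restriction commutes with the Galois action. -/
theorem latRes_galLat {p : ℕ} [Fact p.Prime] [IsDomain O] [IsDiscreteValuationRing O]
    [Algebra ℤ_[p] O] [Module.Finite ℤ_[p] O] [CharZero O] {c₁ : (ZMod M)ˣ →* Δ'}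
    (hle : grp M c₁ ≤ grp M c) (σ : GQ) (v : Lat M c O) :
    latRes hle (galLat M c p O σ v) = galLat M c₁ p O σ (latRes hle v) := by
  refine eq_of_forall_parMap (p := p) fun k _ f => Subtype.ext ?_
  rw [galLat_spec k σ f (latRes hle v)]
  refine ((galG_restrict (isLevel_grp (c := c)) (isLevel_grp (c := c₁)) hle σ
    (χ := parMap (grp M c) f (toParG v)) (χ' := parMap (grp M c₁) f (toParG (latRes hle v)))
    rfl).trans ?_).symm
  rw [← galLat_spec k σ f v]
  rfl

/-- The group of the trivial character does not depend on the target. -/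
theorem grp_trivial_le : grp M (1 : (ZMod M)ˣ →* Δ) ≤ grp M (1 : (ZMod M)ˣ →* Δ') :=
  fun _ h => mem_grp_one.mpr h.1

end Fermat.Agent.Auto
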