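/-
Auto A7: a residual eigen-system of the Hecke algebra occurs in the lattice at level `Γ₀(M)`.
-/
import Fermat.Agent.Auto.Free.Fitting
import Fermat.Agent.Auto.Free.Ops
import Fermat.Agent.GalRep.Lattice
import Fermat.Agent.GalRep.Universal
import Fermat.Agent.Auto.Galois

set_option autoImplicit false
set_option linter.unusedSectionVars false
set_option linter.style.haveILetI false

noncomputable section

namespace Fermat.Agent.Auto

open CongruenceSubgroup IsLocalRing
open Fermat.Agent.GalRep (GoodPrime ParHom heckePolyHom heckeHomAt evFormsOff)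
open Fermat.Agent.DS (IsReps exists_twist)
open scoped MatrixGroups IsMulCommutative

/-! ## Projections and functionals -/

section Functional

variable {O : Type} [CommRing O] [IsLocalRing O] [IsNoetherianRing O]
  [IsAdicComplete (maximalIdeal O) O] [Finite (ResidueField O)] {L : Type} [AddCommGroup L]
  [Module O L] [Module.Finite O L] {ι : Type} {T : ι → Module.End O L} {a : ι → O}
  (hT : ∀ i j, Commute (T i) (T j))

include hT in
/-- A residual functional with the eigenvalues forces the part to be nonzero. -/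
theorem locPart_ne_bot_of_functional (φ : L →ₗ[O] ResidueField O) (hφ : φ ≠ 0)
    (h : ∀ i x, φ (T i x) = residue O (a i) * φ x) : locPart T a ≠ ⊥ := by
  classical
  intro hbot
  have hm : ∀ x ∈ mPow O L 1, φ x = 0 := fun x hx => by
    rw [mPow_one] at hx
    refine Submodule.smul_induction_on hx (fun r hr y _ => ?_)
      (fun u v hu hv => by rw [map_add, hu, hv, add_zero])
    rw [map_smul, Algebra.smul_def, ResidueField.algebraMap_eq, (residue_eq_zero_iff _).mpr hr,
      zero_mul]
  have hf : ∀ i x, φ (shiftOp T a i x) = 0 := fun i x => by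
    rw [shiftOp, LinearMap.sub_apply, Module.algebraMap_end_apply, map_sub, h, map_smul,
      Algebra.smul_def, ResidueField.algebraMap_eq, sub_self]
  have hn : ∀ i x, φ (nilProj T a i x) = φ x := fun i x => by
    obtain ⟨n₀, hn₀⟩ := fitProj_spec (shiftOp T a i) 1
    have h1 := hm _ (hn₀ n₀ le_rfl x).1
    rw [map_sub, ← Nat.sub_add_cancel (Nat.factorial_pos n₀), pow_succ', Module.End.mul_apply,
      hf, sub_zero] at h1
    rw [nilProj, LinearMap.sub_apply, Module.End.one_apply, map_sub, h1, sub_zero]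
  have hF : ∀ (F : Finset ι) x, φ (finProj a hT F x) = φ x := fun F => by
    induction F using Finset.induction with
    | empty => intro x; rw [finProj_empty]; rfl
    | insert i F _ ih => intro x; rw [finProj_insert, Module.End.mul_apply, hn, ih]
  refine hφ (LinearMap.ext fun x => ?_)
  have h0 : locProj a hT x = 0 := by
    have := locProj_mem a hT x
    rwa [hbot, Submodule.mem_bot] at this
  have := hF (exists_stable a hT).choose x
  rw [show finProj a hT _ x = 0 from h0, map_zero] at this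
  exact this.symm

end Functional

/-! ## Residual functionals on integral classes -/

variable {M : ℕ} [NeZero M] {S : Finset ℕ}

/-- A functional with prescribed eigenvalues on a finite module killed only inside the kernel. -/
theorem exists_addHom_of_ker {A W k : Type} [CommRing A] [AddCommGroup W] [Module A W]
    [Module.Finite A W] [Field k] [Finite k] (χ : A →+* k)
    (hker : ∀ r : A, (∀ w : W, r • w = 0) → χ r = 0) :
    ∃ ψ : W →+ k, ψ ≠ 0 ∧ ∀ (r : A) w, ψ (r • w) = χ r * ψ w := by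
  classical
  set P := RingHom.ker χ
  haveI : P.IsPrime := RingHom.ker_isPrime χ
  haveI : Finite (A ⧸ P) := Finite.of_injective _ χ.kerLift_injective
  haveI : P.IsMaximal :=
    Ideal.Quotient.maximal_of_isField _ (Finite.isField_of_domain (A ⧸ P))
  letI := Ideal.Quotient.field P
  have hW : (P • ⊤ : Submodule A W) ≠ ⊤ := fun h => by
    obtain ⟨r, hr1, hr0⟩ := Submodule.exists_sub_one_mem_and_smul_eq_zero_of_fg_of_le_smul P ⊤
      Module.Finite.fg_top (le_of_eq h.symm)
    have h0 := hker r fun w => hr0 w trivial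
    have h1 : χ (r - 1) = 0 := hr1
    rw [map_sub, h0, map_one, zero_sub, neg_eq_zero] at h1
    exact one_ne_zero h1
  obtain ⟨x, -, hx⟩ := SetLike.exists_of_lt (lt_top_iff_ne_top.mpr hW)
  have hx0 : (Submodule.Quotient.mk x : W ⧸ (P • ⊤ : Submodule A W)) ≠ 0 :=
    fun h => hx ((Submodule.Quotient.mk_eq_zero _).mp h)
  obtain ⟨g, hg⟩ := not_forall.mp ((Module.forall_dual_apply_eq_zero_iff (A ⧸ P) _).not.mpr hx0)
  let ψ : W →+ k :=
    ((RingHom.kerLift χ).toAddMonoidHom.comp g.toAddMonoidHom).comp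
      (P • ⊤ : Submodule A W).mkQ.toAddMonoidHom
  refine ⟨ψ, fun h => hg ?_, fun r w => ?_⟩
  · have := DFunLike.congr_fun h x
    exact χ.kerLift_injective (this.trans (map_zero (RingHom.kerLift χ)).symm)
  · show RingHom.kerLift χ (g (Submodule.Quotient.mk (r • w))) = _
    rw [Submodule.Quotient.mk_smul,
      show r • (Submodule.Quotient.mk w : W ⧸ (P • ⊤ : Submodule A W)) =
        (Ideal.Quotient.mk P r : A ⧸ P) • Submodule.Quotient.mk w from rfl,
      map_smul, smul_eq_mul, map_mul]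
    rfl

/-- The same for an algebra acting through endomorphisms. -/
theorem exists_addHom_of_ker' {A W k : Type} [CommRing A] [AddCommGroup W] [Algebra ℤ A]
    [Module.Finite ℤ W] [Field k] [Finite k] (act : A →ₐ[ℤ] Module.End ℤ W) (χ : A →+* k)
    (hker : ∀ r : A, act r = 0 → χ r = 0) :
    ∃ ψ : W →+ k, ψ ≠ 0 ∧ ∀ (r : A) w, ψ (act r w) = χ r * ψ w := by
  letI : Module A W := Module.compHom W act.toRingHom
  haveI : IsScalarTower ℤ A W := ⟨fun n r w => by
    show act (n • r) w = n • act r w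
    rw [map_zsmul]; rfl⟩
  haveI : Module.Finite A W := Module.Finite.of_restrictScalars_finite ℤ _ _
  exact exists_addHom_of_ker (W := W) χ fun r hr => hker r (LinearMap.ext hr)

/-- An eigen-functional on the integral classes. -/
theorem exists_psi {k : Type} [Field k] [Finite k]
    (θ : CuspForm.heckeAlgebra M 2 (↑S : Set ℕ) →+* k) :
    ∃ ψ : ParHom M ℤ →+ k, ψ ≠ 0 ∧ ∀ (i : PrimeOff M S) w,
      ψ (heckeHomAt i.1 w) = θ (CuspForm.heckeAlgebra.T i.1.1.2 i.1.2 i.2) * ψ w := by
  classical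
  obtain ⟨ψ, h0, hψ⟩ := exists_addHom_of_ker' (W := ParHom M ℤ)
    ((heckePolyHom M ℤ).comp (MvPolynomial.rename (Subtype.val : PrimeOff M S → GoodPrime M)))
    (θ.comp (evFormsOff (N := M) (↑S : Set ℕ)).toRingHom) fun r hr => by
      rw [AlgHom.comp_apply] at hr
      have h1 := GalRep.evForms_eq_zero (P := MvPolynomial.rename Subtype.val r) hr
      have h2 : evFormsOff (N := M) (↑S : Set ℕ) r = 0 := Subtype.ext (by
        rw [GalRep.coe_evFormsOff, h1]; exact (ZeroMemClass.coe_zero _).symm)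
      rw [RingHom.comp_apply, AlgHom.toRingHom_eq_coe, RingHom.coe_coe, h2, map_zero]
  refine ⟨ψ, h0, fun i w => ?_⟩
  have h := hψ (MvPolynomial.X i) w
  rw [AlgHom.comp_apply, MvPolynomial.rename_X, GalRep.heckePolyHom_X, RingHom.comp_apply,
    AlgHom.toRingHom_eq_coe, RingHom.coe_coe, evFormsOff, MvPolynomial.aeval_X] at h
  exact h

/-! ## The integral classes span the lattice -/

variable {O : Type} [CommRing O] [IsDomain O] [CharZero O]

/-- The inclusion of integral classes. -/
def ofInt (w : ParHom M ℤ) : Lat M (1 : (ZMod M)ˣ →* Unit) O :=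
  ⟨AddMonoidHom.mk' (fun x => (((w : Additive (Gamma0 M) →+ ℤ)
      (.ofMul ⟨(x.toMul : SL(2, ℤ)), x.toMul.2.1⟩) : ℤ) : O)) fun x y => by
      rw [← Int.cast_add, ← map_add, ← ofMul_mul]; rfl,
    fun γ hγ => by
      show (((w : Additive (Gamma0 M) →+ ℤ) (.ofMul ⟨(γ : SL(2, ℤ)), γ.2.1⟩) : ℤ) : O) = 0
      rw [w.2 ⟨(γ : SL(2, ℤ)), γ.2.1⟩ hγ, Int.cast_zero]⟩

theorem ofInt_apply (w : ParHom M ℤ) (γ : grp M (1 : (ZMod M)ˣ →* Unit)) :
    ((ofInt (O := O) w : Lat M 1 O) : Additive (grp M (1 : (ZMod M)ˣ →* Unit)) →+ O) (.ofMul γ) =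
      (((w : Additive (Gamma0 M) →+ ℤ) (.ofMul ⟨(γ : SL(2, ℤ)), γ.2.1⟩) : ℤ) : O) := rfl

theorem latT_ofInt (ℓ : GoodPrime M) (w : ParHom M ℤ) :
    latT M (1 : (ZMod M)ˣ →* Unit) O ℓ (ofInt w) = ofInt (heckeHomAt ℓ w) := by
  have hℓ := ℓ.1.2
  obtain ⟨π, u, -, hu0, -, hu⟩ := exists_twist hℓ ℓ.2 (gpDia ℓ)
  refine lat_ext_apply fun γ => ?_
  show (isReps_grp hℓ ℓ.2 (gpDia ℓ)).transfer (ofInt w).1 (.ofMul γ) = _
  rw [IsReps.transfer_apply, ofInt_apply, GalRep.coe_heckeHom, GalRep.transferHom_apply,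
    Int.cast_sum]
  set h := isReps_grp (c := (1 : (ZMod M)ˣ →* Unit)) hℓ ℓ.2
    (gpDia ℓ)
  set γ' : Gamma0 M := ⟨(γ : SL(2, ℤ)), γ.2.1⟩
  set e := π.optionCongr
  set tI := GalRep.trIdx (GalRep.goodIndex ℓ) γ'
  set tC := GalRep.trCoef (GalRep.goodIndex ℓ) γ'
  have hco : ∀ i, (⟨((h.coef γ i : grp M (1 : (ZMod M)ˣ →* Unit)) : SL(2, ℤ)),
      (h.coef γ i).2.1⟩ : Gamma0 M) =
      ⟨u i, hu0 i⟩ * tC (e i) * (⟨u (e.symm (tI (e i))), hu0 _⟩ : Gamma0 M)⁻¹ := fun i => by
    refine Subtype.ext ?_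
    have h1 := GalRep.trSpec (GalRep.goodIndex ℓ) γ' (e i)
    obtain ⟨-, h2⟩ := h.unique (γ := γ) (i := i) (j := e.symm (tI (e i)))
      (g := ⟨u i * (tC (e i) : SL(2, ℤ)) * (u (e.symm (tI (e i))))⁻¹, mem_grp_one.mpr
        (mul_mem (mul_mem (hu0 i) (tC (e i)).2) (inv_mem (hu0 _)))⟩) (by
      rw [hu i, hu (e.symm (tI (e i))), show π.optionCongr (e.symm (tI (e i))) = tI (e i) from
        e.apply_symm_apply _, mul_assoc]
      show (u i : GalRep.IMat) * (GalRep.heckeRep _ (e i) * GalRep.gMat γ') = _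
      rw [h1, ← mul_assoc, ← mul_assoc, ← Matrix.SpecialLinearGroup.coe_mul,
        ← Matrix.SpecialLinearGroup.coe_mul, inv_mul_cancel_right])
    rw [h2]; rfl
  have hterm : ∀ i, ((ofInt (O := O) w : Lat M 1 O) :
      Additive (grp M (1 : (ZMod M)ˣ →* Unit)) →+ O) (.ofMul (h.coef γ i)) =
      (((w : Additive (Gamma0 M) →+ ℤ) (.ofMul (tC (e i))) : ℤ) : O) +
        ((((w : Additive (Gamma0 M) →+ ℤ) (.ofMul ⟨u i, hu0 i⟩) : ℤ) : O) -
          (((w : Additive (Gamma0 M) →+ ℤ) (.ofMul ⟨u (e.symm (tI (e i))), hu0 _⟩) : ℤ) : O)) :=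
    fun i => by
      rw [ofInt_apply, hco, ofMul_mul, ofMul_mul, ofMul_inv, map_add, map_add, map_neg,
        Int.cast_add, Int.cast_add, Int.cast_neg]
      abel
  rw [Finset.sum_congr rfl fun i _ => hterm i, Finset.sum_add_distrib, Finset.sum_sub_distrib]
  have hp : ∑ i, (((w : Additive (Gamma0 M) →+ ℤ) (.ofMul ⟨u (e.symm (tI (e i))), hu0 _⟩) : ℤ) : O) =
      ∑ i, (((w : Additive (Gamma0 M) →+ ℤ) (.ofMul ⟨u i, hu0 i⟩) : ℤ) : O) :=
    (Finset.sum_congr rfl fun i _ => rfl).trans (Equiv.sum_comp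
      ((e.trans (GalRep.trPerm (GalRep.goodIndex ℓ) γ')).trans e.symm)
      fun i => (((w : Additive (Gamma0 M) →+ ℤ) (.ofMul ⟨u i, hu0 i⟩) : ℤ) : O))
  rw [hp, sub_self, add_zero]
  exact Equiv.sum_comp e fun i => (((w : Additive (Gamma0 M) →+ ℤ) (.ofMul (tC i)) : ℤ) : O)

/-- The integral classes give a basis. -/
theorem exists_basis_ofInt :
    ∃ (J : Type) (_ : Fintype J) (w : Module.Basis J ℤ (ParHom M ℤ))
      (b : Module.Basis J O (Lat M (1 : (ZMod M)ˣ →* Unit) O)), ∀ j, b j = ofInt (w j) := by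
  classical
  let w := Module.Free.chooseBasis ℤ (ParHom M ℤ)
  have hind : LinearIndependent O fun j => ofInt (O := O) (w j) := by
    refine Fintype.linearIndependent_iff.mpr fun r hr => ?_
    let R : Submodule ℤ O := Submodule.span ℤ (Set.range r)
    haveI : Module.Finite ℤ R := Module.Finite.span_of_finite ℤ (Set.finite_range r)
    haveI : Module.Free ℤ R := Module.free_of_finite_type_torsion_free'
    let bR := Module.Free.chooseBasis ℤ R
    let n := fun j l => bR.repr ⟨r j, Submodule.subset_span ⟨j, rfl⟩⟩ l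
    have hl : ∀ l, ∑ j, n j l • w j = 0 := fun l => by
      refine Subtype.ext (AddMonoidHom.ext fun x => ?_)
      rw [AddSubmonoidClass.coe_finsetSum, AddMonoidHom.finsetSum_apply]
      let γ : grp M (1 : (ZMod M)ˣ →* Unit) := ⟨(x.toMul : SL(2, ℤ)), mem_grp_one.mpr x.toMul.2⟩
      have hx := DFunLike.congr_fun (congrArg Subtype.val hr) (Additive.ofMul γ)
      rw [AddSubmonoidClass.coe_finsetSum, AddMonoidHom.finsetSum_apply] at hx
      have h1 : ∑ j, ((w j : Additive (Gamma0 M) →+ ℤ) x) •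
          (⟨r j, Submodule.subset_span ⟨j, rfl⟩⟩ : R) = 0 := Subtype.ext (by
        rw [AddSubmonoidClass.coe_finsetSum, Submodule.coe_zero]
        refine Eq.trans (Finset.sum_congr rfl fun j _ => ?_) hx
        show (w j : Additive (Gamma0 M) →+ ℤ) x • r j = r j * _
        rw [zsmul_eq_mul, mul_comm]
        rfl)
      have h2 := DFunLike.congr_fun (congrArg bR.repr h1) l
      simp only [map_sum, map_zsmul, map_zero, Finsupp.finsetSum_apply, Finsupp.smul_apply,
        Finsupp.zero_apply] at h2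
      refine Eq.trans (Finset.sum_congr rfl fun j _ => ?_) h2
      show n j l • (w j : Additive (Gamma0 M) →+ ℤ) x = _
      simp only [smul_eq_mul]
      exact mul_comm _ _
    intro j
    have hn : ∀ l, n j l = 0 := fun l => Fintype.linearIndependent_iff.mp w.linearIndependent _ (hl l) j
    have : (⟨r j, Submodule.subset_span ⟨j, rfl⟩⟩ : R) = 0 :=
      bR.repr.injective (Finsupp.ext fun l => by rw [map_zero, Finsupp.zero_apply]; exact hn l)
    exact congrArg Subtype.val this
  have hspan : ⊤ ≤ Submodule.span O (Set.range fun j => ofInt (O := O) (w j)) := fun v _ => by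
    obtain ⟨s, hs⟩ := exists_generators_grp (M := M) (c := (1 : (ZMod M)ˣ →* Unit))
    let R : Submodule ℤ O := Submodule.span ℤ
      ((fun g => (v : Additive (grp M (1 : (ZMod M)ˣ →* Unit)) →+ O) (Additive.ofMul g)) '' (s : Set _))
    have hR : ∀ x, (v : Additive (grp M (1 : (ZMod M)ˣ →* Unit)) →+ O) x ∈ R := by
      intro x
      obtain ⟨γ, rfl⟩ := Additive.ofMul.surjective x
      have hγ : γ ∈ Subgroup.closure (s : Set (grp M (1 : (ZMod M)ˣ →* Unit))) :=
        hs ▸ Subgroup.mem_top γ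
      induction hγ using Subgroup.closure_induction with
      | mem g hg => exact Submodule.subset_span ⟨g, hg, rfl⟩
      | one => rw [ofMul_one, map_zero]; exact R.zero_mem
      | mul a b _ _ ha hb => rw [ofMul_mul, map_add]; exact R.add_mem ha hb
      | inv a _ ha => rw [ofMul_inv, map_neg]; exact R.neg_mem ha
    haveI : Module.Finite ℤ R := Module.Finite.span_of_finite ℤ ((s.finite_toSet).image _)
    haveI : Module.Free ℤ R := Module.free_of_finite_type_torsion_free'
    let bR := Module.Free.chooseBasis ℤ R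
    let φ : Module.Free.ChooseBasisIndex ℤ R → ParHom M ℤ := fun i =>
      ⟨AddMonoidHom.mk' (fun x => bR.coord i ⟨(v : Additive (grp M (1 : (ZMod M)ˣ →* Unit)) →+ O)
          (.ofMul ⟨(x.toMul : SL(2, ℤ)), mem_grp_one.mpr x.toMul.2⟩), hR _⟩) fun x y => by
          rw [← map_add]
          congr 1
          refine Subtype.ext ?_
          rw [Submodule.coe_add, ← map_add]
          rfl,
        fun γ hγ => by
          show bR.coord i _ = 0
          refine (congrArg (bR.coord i) (Subtype.ext ?_)).trans (map_zero _)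
          exact v.2 ⟨(γ : SL(2, ℤ)), mem_grp_one.mpr γ.2⟩ hγ⟩
    have hv : v = ∑ i, ((bR i : R) : O) • ofInt (O := O) (φ i) := by
      refine lat_ext_apply fun γ => ?_
      rw [AddSubmonoidClass.coe_finsetSum, AddMonoidHom.finsetSum_apply]
      have := congrArg Subtype.val
        (bR.sum_repr ⟨(v : Additive (grp M (1 : (ZMod M)ˣ →* Unit)) →+ O) (.ofMul γ), hR _⟩)
      rw [AddSubmonoidClass.coe_finsetSum] at this
      refine this.symm.trans (Finset.sum_congr rfl fun i _ => ?_)
      show bR.repr _ i • ((bR i : R) : O) = ((bR i : R) : O) * ((bR.repr _ i : ℤ) : O)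
      rw [zsmul_eq_mul, mul_comm]
      rfl
    rw [hv]
    refine Submodule.sum_mem _ fun i _ => Submodule.smul_mem _ _ ?_
    have hadd : ∀ u u' : ParHom M ℤ, ofInt (O := O) (u + u') = ofInt u + ofInt u' := fun u u' =>
      lat_ext_apply fun γ => by
        rw [ofInt_apply, Submodule.coe_add, AddMonoidHom.add_apply, Int.cast_add]; rfl
    have := congrArg (AddMonoidHom.mk' (ofInt (M := M) (O := O)) hadd) (w.sum_repr (φ i))
    rw [map_sum] at this
    rw [show ofInt (O := O) (φ i) = _ from this.symm]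
    refine Submodule.sum_mem _ fun j _ => ?_
    rw [map_zsmul]
    exact zsmul_mem (Submodule.subset_span (Set.mem_range_self j)) _
  exact ⟨_, inferInstance, w, Module.Basis.mk hind hspan, fun j => Module.Basis.mk_apply _ _ j⟩

variable [IsDiscreteValuationRing O] [IsAdicComplete (maximalIdeal O) O] [Finite (ResidueField O)]
  {a : ℕ → O}

/-- A residual eigen-system gives a class. -/
theorem latLoc_ne_bot_aux
    (θ : CuspForm.heckeAlgebra M 2 (↑S : Set ℕ) →+* ResidueField O)
    (ha : ∀ (l : ℕ) (hl : l.Prime) (hlM : ¬ l ∣ M) (hlS : l ∉ (↑S : Set ℕ)),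
      θ (CuspForm.heckeAlgebra.T hl hlM hlS) = residue O (a l))
    [Module.Finite O (Lat M (1 : (ZMod M)ˣ →* Unit) O)] :
    latLoc M (1 : (ZMod M)ˣ →* Unit) O S a ≠ ⊥ := by
  classical
  obtain ⟨ψ, hψ0, hψ⟩ := exists_psi θ
  obtain ⟨J, _, w, b, hb⟩ := exists_basis_ofInt (M := M) (O := O)
  let φ : Lat M (1 : (ZMod M)ˣ →* Unit) O →ₗ[O] ResidueField O := b.constr O fun j => ψ (w j)
  have hφ : ∀ u, φ (ofInt u) = ψ u := by
    have hadd : ∀ u u' : ParHom M ℤ, ofInt (O := O) (u + u') = ofInt u + ofInt u' := fun u u' =>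
      lat_ext_apply fun γ => by
        rw [ofInt_apply, Submodule.coe_add, AddMonoidHom.add_apply, Int.cast_add]; rfl
    have : φ.toAddMonoidHom.comp (AddMonoidHom.mk' (ofInt (M := M) (O := O)) hadd) = ψ := by
      refine AddMonoidHom.ext fun u => ?_
      rw [← w.sum_repr u, map_sum, map_sum]
      refine Finset.sum_congr rfl fun j _ => ?_
      rw [map_zsmul, map_zsmul]
      congr 1
      show φ (ofInt (w j)) = _
      rw [← hb, Module.Basis.constr_basis]
    exact DFunLike.congr_fun this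
  refine locPart_ne_bot_of_functional (fun i j => latT_commute' _ _) φ (fun h => hψ0 ?_) fun i => ?_
  · refine AddMonoidHom.ext fun u => ?_
    rw [← hφ, h]; rfl
  · have : φ ∘ₗ latT M (1 : (ZMod M)ˣ →* Unit) O i.1 =
        residue O (a ((i.1 : Nat.Primes) : ℕ)) • φ := b.ext fun j => by
      rw [LinearMap.comp_apply, LinearMap.smul_apply, hb, latT_ofInt, hφ, hφ, hψ,
        ha _ i.1.1.2 i.1.2 i.2, smul_eq_mul]
    exact LinearMap.congr_fun this

end Fermat.Agent.Auto
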